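/-
T4E (S36 for every exponent `e ≥ 2`; Glue/G owner helper3): **descent of the level** for (NEW_e)
(copy of `Lib/T4/Glue/Level.lean` at the levels `N'' q^k q q`).

`t4e_newAt_of_mul`: the statement `T4eNewAt t4eWU (N'' * a) q k` at the level `N'' a q^k q q` implies
the statement `T4eNewAt t4eWU N'' q k` at the level `N'' q^k q q` (`q ∤ N'' a`): view `y` in the bigger
function field (`tkr_pull_tWsub`; `tkrSig`, `U_q` and `w_{q^e}` commute with the inclusion), and descend
the `m`-th root with (K2) (`tkr_root_descend_mul`) and the divisibility of the order at the cusp `0`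
(`tdd_cusp_dvd`).

`t4e_new_of_aux : T4eNewAux t4eWU → T4eNew t4eWU`: raise the level by `4` (`q` odd) or `9` (`q = 2`).
-/
import Mathlib
import Fermat.Agent.Lib.T4E.G.WU
import Fermat.Agent.Lib.T4.Glue.Level
import Fermat.Agent.Lib.T2.Gal.Level

set_option autoImplicit false
set_option linter.unusedSectionVars false
set_option linter.unusedVariables false
set_option linter.style.haveILetI false

namespace Fermat.Agent.T4

open ModularCurve HahnSeries AlgebraicCurve Fermat.Agent.T1 Fermat.Agent.T2 Fermat.Agent.S24Lib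
open ModularGroup (S T)

local notation "Kbar" => AlgebraicClosure ℚ
local notation "GQ" => (AlgebraicClosure ℚ ≃ₐ[ℚ] AlgebraicClosure ℚ)

section Inc

variable (N'' q k a : ℕ) [NeZero (N'' * q ^ k * q * q)] [NeZero a] [NeZero (N'' * a * q ^ k * q * q)]

theorem t4el_lvl : N'' * q ^ k * q * q * a = N'' * a * q ^ k * q * q := by ring

/-- `F_{N'' q q} ⊆ F_{N'' a q q}` -/
theorem t4el_le :
    modularFunctionFieldBar (N'' * q ^ k * q * q) ≤ modularFunctionFieldBar (N'' * a * q ^ k * q * q) := by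
  intro y hy
  have h1 := tkr_bar_mono (N'' * q ^ k * q * q) a hy
  rwa [t4el_lvl] at h1

/-- the inclusion `F_{N'' q q} → F_{N'' a q q}` -/
noncomputable def t4elInc :
    ↥(modularFunctionFieldBar (N'' * q ^ k * q * q)) →ₐ[Kbar] ↥(modularFunctionFieldBar (N'' * a * q ^ k * q * q)) :=
  IntermediateField.inclusion (t4el_le N'' q k a)

theorem coe_t4elInc (x : ↥(modularFunctionFieldBar (N'' * q ^ k * q * q))) :
    ((t4elInc N'' q k a x : ↥(modularFunctionFieldBar (N'' * a * q ^ k * q * q))) : LaurentSeries Kbar) =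
      (x : LaurentSeries Kbar) :=
  IntermediateField.coe_inclusion (t4el_le N'' q k a) x

/-- the inclusion on units -/
noncomputable def t4elIncU :
    (↥(modularFunctionFieldBar (N'' * q ^ k * q * q)))ˣ →*
      (↥(modularFunctionFieldBar (N'' * a * q ^ k * q * q)))ˣ :=
  Units.map ((t4elInc N'' q k a : ↥(modularFunctionFieldBar (N'' * q ^ k * q * q)) →+*
    ↥(modularFunctionFieldBar (N'' * a * q ^ k * q * q))) : ↥(modularFunctionFieldBar (N'' * q ^ k * q * q)) →*
    ↥(modularFunctionFieldBar (N'' * a * q ^ k * q * q)))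

theorem coe_t4elIncU (y : (↥(modularFunctionFieldBar (N'' * q ^ k * q * q)))ˣ) :
    (((t4elIncU N'' q k a y : (↥(modularFunctionFieldBar (N'' * a * q ^ k * q * q)))ˣ) :
      ↥(modularFunctionFieldBar (N'' * a * q ^ k * q * q))) : LaurentSeries Kbar) =
      ((y : ↥(modularFunctionFieldBar (N'' * q ^ k * q * q))) : LaurentSeries Kbar) := by
  rw [t4elIncU, Units.coe_map]
  exact coe_t4elInc N'' q k a (y : ↥(modularFunctionFieldBar (N'' * q ^ k * q * q)))

/-- the Galois action commutes with the change of level -/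
theorem t4el_sig (φ : GQ) (y : (↥(modularFunctionFieldBar (N'' * q ^ k * q * q)))ˣ) :
    tkrSig (N'' * a * q ^ k * q * q) φ (t4elIncU N'' q k a y)
      = t4elIncU N'' q k a (tkrSig (N'' * q ^ k * q * q) φ y) := by
  apply Units.ext
  apply Subtype.ext
  rw [tkrSig_coe, coe_t4elIncU, coe_t4elIncU, tkrSig_coe]

/-- transport of `tWsub` along an equality of levels -/
theorem t4el_tWsub_congr {N₁ N₂ : ℕ} (hN : N₁ = N₂) (m : ℕ)
    {y₁ : (↥(modularFunctionFieldBar N₁))ˣ} {y₂ : (↥(modularFunctionFieldBar N₂))ˣ}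
    (hy : ((y₁ : ↥(modularFunctionFieldBar N₁)) : LaurentSeries Kbar) =
      ((y₂ : ↥(modularFunctionFieldBar N₂)) : LaurentSeries Kbar))
    (h₁ : y₁ ∈ tWsub Kbar N₁ m) : y₂ ∈ tWsub Kbar N₂ m := by
  subst hN
  have : y₁ = y₂ := Units.ext (Subtype.ext hy)
  rwa [← this]

/-- pull-back of `tWsub` -/
theorem t4el_tWsub (m : ℕ) {y : (↥(modularFunctionFieldBar (N'' * q ^ k * q * q)))ˣ}
    (hy : y ∈ tWsub Kbar (N'' * q ^ k * q * q) m) :
    t4elIncU N'' q k a y ∈ tWsub Kbar (N'' * a * q ^ k * q * q) m := by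
  have h1 := tkr_pull_tWsub (N'' * q ^ k * q * q) a m hy
  refine t4el_tWsub_congr (t4el_lvl N'' q k a) m ?_ h1
  rw [coe_t4elIncU]
  exact coe_heckeAlphaBar _ _ _

/-- **`U_q` commutes with the change of level** -/
theorem t4el_U [hq : Fact q.Prime] (y : ↥(modularFunctionFieldBar (N'' * q ^ k * q * q))) :
    tkrHeckeU (N'' * a * q ^ k * q * q) q (t4elInc N'' q k a y)
      = t4elInc N'' q k a (tkrHeckeU (N'' * q ^ k * q * q) q y) := by
  haveI : NeZero q := ⟨hq.out.ne_zero⟩
  obtain ⟨ζ, hζ, -⟩ := tkr_exists_zeta q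
  refine tkrHeckeU_eq_of_spec hq.out (Dvd.intro_left _ rfl) hζ _ _ ?_
  rw [coe_t4elInc, coe_t4elInc]
  exact tkrHeckeU_spec hq.out (Dvd.intro_left _ rfl) hζ y

/-- the same on units -/
theorem t4el_UU [hq : Fact q.Prime] (y : (↥(modularFunctionFieldBar (N'' * q ^ k * q * q)))ˣ) :
    tkrHeckeUUnits (N'' * a * q ^ k * q * q) q (t4elIncU N'' q k a y)
      = t4elIncU N'' q k a (tkrHeckeUUnits (N'' * q ^ k * q * q) q y) := by
  apply Units.ext
  exact t4el_U N'' q k a (y : ↥(modularFunctionFieldBar (N'' * q ^ k * q * q)))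

end Inc

section W

variable (N'' q k a : ℕ) [NeZero N''] [NeZero a] [hq : Fact q.Prime] (h : ¬ q ∣ N'')
  (h' : ¬ q ∣ N'' * a) [NeZero (N'' * q ^ k * q * q)] [NeZero (N'' * a * q ^ k * q * q)]

theorem t4el_inc_jd {d : ℕ} (hd : d ∣ N'' * q ^ k * q * q) (hd' : d ∣ N'' * a * q ^ k * q * q) :
    t4elInc N'' q k a (t2wJd Kbar (N'' * q ^ k * q * q) d hd) = t2wJd Kbar (N'' * a * q ^ k * q * q) d hd' := by
  haveI : NeZero d := t2w_neZero_of_dvd (N'' * q ^ k * q * q) hd
  apply Subtype.ext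
  rw [coe_t4elInc, coe_t2wJd, coe_t2wJd]

/-- **`w_{q²}` at the level `N'' a q q` restricts to `w_{q²}` at the level `N'' q q`** -/
theorem t4el_w (x : ↥(modularFunctionFieldBar (N'' * q ^ k * q * q))) :
    t4w Kbar (N'' * a * q ^ k * q * q) (N'' * a) (q ^ k * q * q) (t4e_lvl (N'' * a) q k)
        (t4e_coprime (N'' * a) q k h') (t4elInc N'' q k a x)
      = t4elInc N'' q k a
          (t4w Kbar (N'' * q ^ k * q * q) N'' (q ^ k * q * q) (t4e_lvl N'' q k) (t4e_coprime N'' q k h) x) := by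
  set wup := t4w Kbar (N'' * a * q ^ k * q * q) (N'' * a) (q ^ k * q * q) (t4e_lvl (N'' * a) q k)
    (t4e_coprime (N'' * a) q k h') with hwup
  set wlo := t4w Kbar (N'' * q ^ k * q * q) N'' (q ^ k * q * q) (t4e_lvl N'' q k) (t4e_coprime N'' q k h)
    with hwlo
  have key : ((wup : ↥(modularFunctionFieldBar (N'' * a * q ^ k * q * q)) ≃ₐ[Kbar]
        ↥(modularFunctionFieldBar (N'' * a * q ^ k * q * q))) :
        ↥(modularFunctionFieldBar (N'' * a * q ^ k * q * q)) →+*
        ↥(modularFunctionFieldBar (N'' * a * q ^ k * q * q))).comp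
        ((t4elInc N'' q k a : ↥(modularFunctionFieldBar (N'' * q ^ k * q * q)) →ₐ[Kbar]
          ↥(modularFunctionFieldBar (N'' * a * q ^ k * q * q))) :
          ↥(modularFunctionFieldBar (N'' * q ^ k * q * q)) →+*
          ↥(modularFunctionFieldBar (N'' * a * q ^ k * q * q)))
      = ((t4elInc N'' q k a : ↥(modularFunctionFieldBar (N'' * q ^ k * q * q)) →ₐ[Kbar]
          ↥(modularFunctionFieldBar (N'' * a * q ^ k * q * q))) :
          ↥(modularFunctionFieldBar (N'' * q ^ k * q * q)) →+*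
          ↥(modularFunctionFieldBar (N'' * a * q ^ k * q * q))).comp
        ((wlo : ↥(modularFunctionFieldBar (N'' * q ^ k * q * q)) ≃ₐ[Kbar]
          ↥(modularFunctionFieldBar (N'' * q ^ k * q * q))) :
          ↥(modularFunctionFieldBar (N'' * q ^ k * q * q)) →+*
          ↥(modularFunctionFieldBar (N'' * q ^ k * q * q))) := by
    apply t2w_ringHom_ext
    · intro c
      simp
    · intro D hD
      obtain ⟨d, ε, ε', hd, hε, rfl⟩ := t4w_dvd_cases (N'' * q ^ k * q * q) N'' (q ^ k * q * q) (t4e_lvl N'' q k) hD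
      have hde : d ∣ N'' * a := hd.mul_right a
      show wup (t4elInc N'' q k a (t2wJd Kbar (N'' * q ^ k * q * q) (d * ε) hD))
        = t4elInc N'' q k a (wlo (t2wJd Kbar (N'' * q ^ k * q * q) (d * ε) hD))
      rw [t4el_inc_jd N'' q k a hD
          (t4w_dvd (N'' * a * q ^ k * q * q) (N'' * a) (q ^ k * q * q) (t4e_lvl (N'' * a) q k) hde hε),
        hwup, t4w_jd Kbar (N'' * a * q ^ k * q * q) (N'' * a) (q ^ k * q * q) (t4e_lvl (N'' * a) q k)
          (t4e_coprime (N'' * a) q k h') hde hε,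
        hwlo, t4w_jd Kbar (N'' * q ^ k * q * q) N'' (q ^ k * q * q) (t4e_lvl N'' q k)
          (t4e_coprime N'' q k h) hd hε,
        t4el_inc_jd N'' q k a (t4w_dvd' (N'' * q ^ k * q * q) N'' (q ^ k * q * q) (t4e_lvl N'' q k) hd hε)
          (t4w_dvd' (N'' * a * q ^ k * q * q) (N'' * a) (q ^ k * q * q) (t4e_lvl (N'' * a) q k) hde hε)]
  exact RingHom.congr_fun key x

/-- the same on units, for the concrete `w_{q²}` -/
theorem t4el_wU (y : (↥(modularFunctionFieldBar (N'' * q ^ k * q * q)))ˣ) :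
    t4eWU (N'' * a) q k h' (t4elIncU N'' q k a y) = t4elIncU N'' q k a (t4eWU N'' q k h y) := by
  apply Units.ext
  exact t4el_w N'' q k a h h' (y : ↥(modularFunctionFieldBar (N'' * q ^ k * q * q)))

end W

section Main

/-- **descent of the level** for (NEW_e): the statement at the level `N'' a q^k q q` implies the
statement at the level `N'' q^k q q` -/
theorem t4e_newAt_of_mul (N'' q k a : ℕ) [NeZero N''] [NeZero a] [hq : Fact q.Prime]
    (h : ¬ q ∣ N'') (h' : ¬ q ∣ N'' * a) [NeZero (N'' * q ^ k * q * q)]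
    [NeZero (N'' * a * q ^ k * q * q)]
    (hup : T4eNewAt t4eWU (N'' * a) q k h') : T4eNewAt t4eWU N'' q k h := by
  obtain ⟨c, hc, hupC⟩ := hup
  refine ⟨c, hc, ?_⟩
  intro A hA m hm hm0 y hy hinv hU hUw
  -- the hypotheses at the level `N'' a q^k q q`
  have hy' : t4elIncU N'' q k a y ∈ tWsub Kbar (N'' * a * q ^ k * q * q) m :=
    t4el_tWsub N'' q k a m hy
  have hinv' : ∀ σ ∈ A.inertiaSubgroupIn ℚ,
      ∃ t : (↥(modularFunctionFieldBar (N'' * a * q ^ k * q * q)))ˣ,
        tkrSig (N'' * a * q ^ k * q * q) σ (t4elIncU N'' q k a y)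
          = t4elIncU N'' q k a y * t ^ m := by
    intro σ hσ
    obtain ⟨t, ht⟩ := hinv σ hσ
    refine ⟨t4elIncU N'' q k a t, ?_⟩
    rw [t4el_sig, ht, map_mul, map_pow]
  have hU' : ∃ t : (↥(modularFunctionFieldBar (N'' * a * q ^ k * q * q)))ˣ,
      tkrHeckeUUnits (N'' * a * q ^ k * q * q) q (t4elIncU N'' q k a y) = t ^ m := by
    obtain ⟨t, ht⟩ := hU
    refine ⟨t4elIncU N'' q k a t, ?_⟩
    rw [t4el_UU, ht, map_pow]
  have hUw' : ∃ t : (↥(modularFunctionFieldBar (N'' * a * q ^ k * q * q)))ˣ,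
      tkrHeckeUUnits (N'' * a * q ^ k * q * q) q
        (t4eWU (N'' * a) q k h' (t4elIncU N'' q k a y)) = t ^ m := by
    obtain ⟨t, ht⟩ := hUw
    refine ⟨t4elIncU N'' q k a t, ?_⟩
    rw [t4el_wU N'' q k a h h', t4el_UU, ht, map_pow]
  obtain ⟨ts, hts⟩ := hupC A hA m hm hm0 (t4elIncU N'' q k a y) hy' hinv' hU' hUw'
  -- `u = y ^ c`
  set u : (↥(modularFunctionFieldBar (N'' * q ^ k * q * q)))ˣ := y ^ c with hu
  have huW : u ∈ tWsub Kbar (N'' * q ^ k * q * q) m :=
    (tWsub Kbar (N'' * q ^ k * q * q) m).pow_mem hy _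
  have hιu : t4elIncU N'' q k a u = ts ^ m := by
    rw [hu, map_pow, hts]
  have hcoe : ((ts : ↥(modularFunctionFieldBar (N'' * a * q ^ k * q * q))) :
        LaurentSeries Kbar) ^ m
      = ((u : ↥(modularFunctionFieldBar (N'' * q ^ k * q * q))) : LaurentSeries Kbar) := by
    rw [← coe_t4elIncU N'' q k a u, hιu, Units.val_pow_eq_pow_val, SubmonoidClass.coe_pow]
  have htsmem : ((ts : ↥(modularFunctionFieldBar (N'' * a * q ^ k * q * q))) :
        LaurentSeries Kbar) ∈ modularFunctionFieldBar (N'' * q ^ k * q * q * a) := by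
    have key : ∀ z : LaurentSeries Kbar,
        z ∈ modularFunctionFieldBar (N'' * a * q ^ k * q * q) →
        z ∈ modularFunctionFieldBar (N'' * q ^ k * q * q * a) := by
      intro z hz
      rwa [t4el_lvl]
    exact key _ (ts : ↥(modularFunctionFieldBar (N'' * a * q ^ k * q * q))).2
  have hgN : ((ts : ↥(modularFunctionFieldBar (N'' * a * q ^ k * q * q))) : LaurentSeries Kbar)
      ∈ modularFunctionFieldBar (N'' * q ^ k * q * q) :=
    tkr_root_descend_mul hm0 a (NeZero.ne a) (N'' * q ^ k * q * q)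
      (u : ↥(modularFunctionFieldBar (N'' * q ^ k * q * q))).2
      htsmem hcoe (tdd_cusp_dvd (N'' * q ^ k * q * q) m u huW S)
  have hg0 : (⟨((ts : ↥(modularFunctionFieldBar (N'' * a * q ^ k * q * q))) :
        LaurentSeries Kbar), hgN⟩ : ↥(modularFunctionFieldBar (N'' * q ^ k * q * q))) ≠ 0 := by
    intro h0
    have h3 : ((ts : ↥(modularFunctionFieldBar (N'' * a * q ^ k * q * q))) :
        LaurentSeries Kbar) = 0 := congrArg Subtype.val h0
    have h4 : (ts : ↥(modularFunctionFieldBar (N'' * a * q ^ k * q * q))) = 0 := Subtype.ext h3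
    exact ts.ne_zero h4
  refine ⟨Units.mk0 _ hg0, ?_⟩
  have hut : u = Units.mk0 _ hg0 ^ m := by
    apply Units.ext
    apply Subtype.ext
    rw [Units.val_pow_eq_pow_val (Units.mk0 _ hg0) m, Units.val_mk0, SubmonoidClass.coe_pow]
    exact hcoe.symm
  rw [← hut]

/-- **reduction of (NEW_e) to the levels without elliptic points** `4 ∣ N''` or `9 ∣ N''` -/
theorem t4e_new_of_aux (haux : T4eNewAux t4eWU) : T4eNew t4eWU := by
  intro N'' q k _ hq h _ hk
  have hqk : q ^ k ≠ 0 := pow_ne_zero k hq.out.ne_zero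
  by_cases h2 : q = 2
  · -- `q = 2`: raise the level by `9`
    have h' : ¬ q ∣ N'' * 9 := by
      intro hdvd
      rcases (Nat.Prime.dvd_mul hq.out).mp hdvd with h3 | h3
      · exact h h3
      · rw [h2] at h3
        omega
    haveI : NeZero (N'' * 9) := ⟨Nat.mul_ne_zero (NeZero.ne N'') (by norm_num)⟩
    haveI : NeZero (N'' * 9 * q ^ k * q * q) :=
      ⟨Nat.mul_ne_zero (Nat.mul_ne_zero (Nat.mul_ne_zero (NeZero.ne _) hqk) hq.out.ne_zero)
        hq.out.ne_zero⟩
    exact t4e_newAt_of_mul N'' q k 9 h h'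
      (haux (N'' * 9) q k h' hk (Or.inr (Dvd.intro_left N'' rfl)))
  · -- `q` odd: raise the level by `4`
    have h' : ¬ q ∣ N'' * 4 := by
      intro hdvd
      rcases (Nat.Prime.dvd_mul hq.out).mp hdvd with h3 | h3
      · exact h h3
      · have h4 : q ∣ 2 ^ 2 := by norm_num; exact h3
        exact h2 ((Nat.prime_dvd_prime_iff_eq hq.out Nat.prime_two).mp (hq.out.dvd_of_dvd_pow h4))
    haveI : NeZero (N'' * 4) := ⟨Nat.mul_ne_zero (NeZero.ne N'') (by norm_num)⟩
    haveI : NeZero (N'' * 4 * q ^ k * q * q) :=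
      ⟨Nat.mul_ne_zero (Nat.mul_ne_zero (Nat.mul_ne_zero (NeZero.ne _) hqk) hq.out.ne_zero)
        hq.out.ne_zero⟩
    exact t4e_newAt_of_mul N'' q k 4 h h'
      (haux (N'' * 4) q k h' hk (Or.inl (Dvd.intro_left N'' rfl)))

end Main

end Fermat.Agent.T4
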