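/-
T4E (S36 for every exponent `e ≥ 2`; Glue/G owner helper3): **top of the statement-level reduction**.

`t4e_S36gen : T4eNewAux t4eWU → (statement S36 with `2 ≤ M.factorization q`, without the unused
hypotheses `hlam2`, `hres`)`: the only open input is the geometric statement (NEW_e) at the levels
`N'' q^k q q`, `k ≥ 1`, `4 ∣ N''` or `9 ∣ N''` (`Lib/T4E/Defs.lean`); the case `e = 2` is T4
(`t4nsc_new`), the newness (F2) is `t2f_newform`.
-/
import Mathlib
import Fermat.Agent.Lib.T4E.Glue.S36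
import Fermat.Agent.Lib.T4E.Glue.Level
import Fermat.Agent.Lib.T4.New.StepCFixU
import Fermat.Agent.Lib.T2.F.Newform

set_option autoImplicit false
set_option linter.unusedSectionVars false
set_option linter.unusedVariables false

open Polynomial
open CuspForm CuspForm.IsNewform

namespace Fermat.Agent.T4

/-- **S36 for every exponent `e ≥ 2`**, from (NEW_e) at the levels without elliptic points -/
theorem t4e_S36gen (hnew : T4eNewAux t4eWU)
    {M : ℕ} [NeZero M] {g : CuspForm (CongruenceSubgroup.Gamma0 M) 2} (hg : g.IsNewform)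
    (lam : ℕ) [Fact lam.Prime]
    (S : Finset ℕ)
    (O' : Type) [CommRing O'] [IsDomain O'] [IsDiscreteValuationRing O']
    [IsAdicComplete (IsLocalRing.maximalIdeal O') O'] [Finite (IsLocalRing.ResidueField O')]
    [CharZero O'] (hlamO' : (lam : O') ∈ IsLocalRing.maximalIdeal O')
    (chig : CuspForm.heckeAlgebra M 2 (↑S : Set ℕ) →+* ℂ)
    (hchig : ∀ (ℓ : ℕ) (hℓ : ℓ.Prime) (hℓM : ¬ ℓ ∣ M) (hℓS : ℓ ∉ (↑S : Set ℕ)),
      chig (CuspForm.heckeAlgebra.T hℓ hℓM hℓS) = ModularFormClass.qCoeff g ℓ)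
    (iota : chig.range →+* O')
    (hlamS : lam ∈ S) (hMS : ∀ q : ℕ, q.Prime → q ∣ M → q ∈ S) :
    ∃ (O'' : Type) (_ : CommRing O'') (_ : IsDomain O'') (_ : IsDiscreteValuationRing O'')
      (_ : IsAdicComplete (IsLocalRing.maximalIdeal O'') O'')
      (_ : Finite (IsLocalRing.ResidueField O''))
      (_ : CharZero O'') (_ : Algebra O' O'') (_ : Module.Finite O' O'')
      (_ : IsLocalHom (algebraMap O' O'')),
      Function.Injective (algebraMap O' O'') ∧
      ∃ ρ : GaloisRepAdic O'',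
        (∀ (ℓ : ℕ) (hℓ : ℓ.Prime) (hℓM : ¬ ℓ ∣ M) (hℓS : ℓ ∉ (↑S : Set ℕ)),
          ∀ A : ValuationSubring (AlgebraicClosure ℚ), A.LiesOverPrime ℓ →
            ∀ σ : AlgebraicClosure ℚ ≃ₐ[ℚ] AlgebraicClosure ℚ, A.IsFrobeniusAt σ ℓ →
              LinearMap.charpoly (ρ.ρ σ) =
                X ^ 2 - C (algebraMap O' O'' ((iota.comp chig.rangeRestrict)
                  (CuspForm.heckeAlgebra.T hℓ hℓM hℓS))) * X + C ((ℓ : O''))) ∧
        (∀ q : ℕ, q.Prime → q ≠ lam → 2 ≤ M.factorization q → ¬ ρ.IsUnipotentOnInertiaAt q) :=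
  t4e_S36gen_of_package
    (fun p _ N _ => t4e_package_of_new t4nsc_new (t4e_new_of_aux hnew) p N)
    Fermat.Agent.T2.t2f_newform hg lam S O' hlamO' chig hchig iota hlamS hMS

end Fermat.Agent.T4
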