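/-
T4E (S36 for every exponent `e ≥ 2`; Glue/G owner helper3): **statement S36 for every exponent from the
Tate module packages with (N9), (N9_e) and the newness (F2)**.

`t4e_S36gen_of_package : (∀ p N, T4ePackage p N) → T2fNewform → (statement S36 with
`2 ≤ M.factorization q` instead of `M.factorization q = 2`)`: the representation is `teRep` on the
eigen-lattice of the newform (as in S35/S36); if it were unipotent on the inertia groups at a prime
`q ≠ lam` with `q² ∣ M`, Kolchin's theorem would give a non-zero vector of the eigen-lattice fixed by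
an inertia group at `q`, contradicting (N9) (`q² ∥ M`) resp. (N9_e) (`q³ ∣ M`).
-/
import Mathlib
import Fermat.Agent.Lib.T4.Glue.S36
import Fermat.Agent.Lib.T4E.Glue.Defs

set_option autoImplicit false
set_option linter.unusedSectionVars false
set_option linter.unusedVariables false
set_option linter.style.haveILetI false

open scoped TensorProduct
open IsLocalRing Polynomial Fermat.Agent.CFT Fermat.Agent.T1 ModularCurve CongruenceSubgroup
  Fermat.Agent.S24Lib Fermat.Agent.T2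

namespace Fermat.Agent.T4

local notation "Kbar" => AlgebraicClosure ℚ
local notation "GQ" => (AlgebraicClosure ℚ ≃ₐ[ℚ] AlgebraicClosure ℚ)

noncomputable section

/-- **statement S36 for every exponent `e ≥ 2` from the Tate module packages with (N9), (N9_e) and
the newness (F2)** -/
theorem t4e_S36gen_of_package
    (hpkg : ∀ (p : ℕ) [Fact p.Prime] (N : ℕ) [NeZero N], T4ePackage p N) (hnew : T2fNewform)
    {M : ℕ} [NeZero M] {g : CuspForm (CongruenceSubgroup.Gamma0 M) 2} (hg : g.IsNewform)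
    (lam : ℕ) [Fact lam.Prime]
    (S : Finset ℕ)
    (O' : Type) [CommRing O'] [IsDomain O'] [IsDiscreteValuationRing O']
    [IsAdicComplete (IsLocalRing.maximalIdeal O') O'] [Finite (IsLocalRing.ResidueField O')]
    [CharZero O'] (hlamO' : (lam : O') ∈ IsLocalRing.maximalIdeal O')
    (chig : CuspForm.heckeAlgebra M 2 (↑S : Set ℕ) →+* ℂ)
    (hchig : ∀ (ℓ : ℕ) (hℓ : ℓ.Prime) (hℓM : ¬ ℓ ∣ M) (hℓS : ℓ ∉ (↑S : Set ℕ)),
      chig (CuspForm.heckeAlgebra.T hℓ hℓM hℓS) = ModularFormClass.qCoeff g ℓ)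
    (iota : chig.range →+* O')
    (hlamS : lam ∈ S) (hMS : ∀ q : ℕ, q.Prime → q ∣ M → q ∈ S) :
    ∃ (O'' : Type) (_ : CommRing O'') (_ : IsDomain O'') (_ : IsDiscreteValuationRing O'')
      (_ : IsAdicComplete (IsLocalRing.maximalIdeal O'') O'')
      (_ : Finite (IsLocalRing.ResidueField O''))
      (_ : CharZero O'') (_ : Algebra O' O'') (_ : Module.Finite O' O'')
      (_ : IsLocalHom (algebraMap O' O'')),
      Function.Injective (algebraMap O' O'') ∧
      ∃ ρ : GaloisRepAdic O'',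
        (∀ (ℓ : ℕ) (hℓ : ℓ.Prime) (hℓM : ¬ ℓ ∣ M) (hℓS : ℓ ∉ (↑S : Set ℕ)),
          ∀ A : ValuationSubring (AlgebraicClosure ℚ), A.LiesOverPrime ℓ →
            ∀ σ : AlgebraicClosure ℚ ≃ₐ[ℚ] AlgebraicClosure ℚ, A.IsFrobeniusAt σ ℓ →
              LinearMap.charpoly (ρ.ρ σ) =
                X ^ 2 - C (algebraMap O' O'' ((iota.comp chig.rangeRestrict)
                  (CuspForm.heckeAlgebra.T hℓ hℓM hℓS))) * X + C ((ℓ : O''))) ∧
        (∀ q : ℕ, q.Prime → q ≠ lam → 2 ≤ M.factorization q → ¬ ρ.IsUnipotentOnInertiaAt q) := by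
  classical
  obtain ⟨O'', i1, i2, i3, i4, i5, i6, i7, i8, i9, hinj, ι', hι'inj, hι'⟩ :=
    t2fn_exists_lamg hg.1 (↑S : Set ℕ) hMS O' chig hchig iota
  refine ⟨O'', i1, i2, i3, i4, i5, i6, i7, i8, i9, hinj, ?_⟩
  have hp'' : (lam : O'') ∈ maximalIdeal O'' := by
    rw [mem_maximalIdeal, mem_nonunits_iff] at hlamO' ⊢
    intro hu
    apply hlamO'
    have : (lam : O'') = algebraMap O' O'' (lam : O') := (map_natCast _ lam).symm
    rw [this] at hu
    exact isUnit_of_map_unit (algebraMap O' O'') _ hu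
  letI : Algebra ℤ_[lam] O'' := tePadicAlgebra lam O'' hp''
  obtain ⟨T, j1, j2, j3, j4, gal, hecke, hcomm, hcont, hunr, hES, hN9, hN9e, h56⟩ := hpkg lam M
  set lamg : CuspForm.heckeAlgebra M 2 (∅ : Set ℕ) →+* O'' :=
    ι'.comp (terEigenCharC hg.1 (∅ : Set ℕ)).rangeRestrict with hlamg
  obtain ⟨h2, hc⟩ := h56 O'' lamg
  set Tl : ℕ → CuspForm.heckeAlgebra M 2 (∅ : Set ℕ) := fun l =>
    if h : l.Prime ∧ ¬ l ∣ M then CuspForm.heckeAlgebra.T h.1 h.2 (Set.notMem_empty l) else 0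
    with hTl
  have hTl' : ∀ (l : ℕ) (hl : l.Prime) (hlM : ¬ l ∣ M),
      Tl l = CuspForm.heckeAlgebra.T hl hlM (Set.notMem_empty l) := by
    intro l hl hlM
    rw [hTl]
    simp only
    rw [dif_pos ⟨hl, hlM⟩]
  obtain ⟨ρ, hρ1, hρ2⟩ := t4g_galoisRep_of_package lam M S hlamS hMS gal hecke hcomm hcont Tl
    (fun l hl hlM hlp A hA σ hσ => by rw [hTl' l hl hlM]; exact hES l hl hlM hlp A hA σ hσ)
    hp'' lamg h2 hc
  refine ⟨ρ, fun ℓ hℓ hℓM hℓS A hA σ hσ => ?_, fun q hq hqlam hq2 => ?_⟩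
  · rw [hρ1 ℓ hℓ hℓM hℓS A hA σ hσ, hTl' ℓ hℓ hℓM, RingHom.comp_apply, RingHom.comp_apply,
      ← hι' (CuspForm.heckeAlgebra.T hℓ hℓM hℓS)]
    rfl
  · have hM0 : M ≠ 0 := NeZero.ne M
    obtain ⟨A, hA⟩ :=
      Fermat.Agent.Lib.Helper6.exists_valuationSubring_liesOverPrime (AlgebraicClosure ℚ) hq
    -- `M = N'' * q ^ e` with `q ∤ N''`, `e = M.factorization q`
    set e := M.factorization q with he
    have hdvd : q ^ e ∣ M := Nat.ordProj_dvd M q
    obtain ⟨N'', hN''⟩ := hdvd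
    have hN''0 : N'' ≠ 0 := by
      rintro rfl
      rw [mul_zero] at hN''
      exact hM0 hN''
    haveI : NeZero N'' := ⟨hN''0⟩
    have hqN'' : ¬ q ∣ N'' := by
      rintro ⟨r, rfl⟩
      have h3 : q ^ (e + 1) ∣ M := ⟨r, by rw [hN'']; ring⟩
      have h4 := (hq.pow_dvd_iff_le_factorization hM0).mp h3
      omega
    rcases Nat.lt_or_ge e 3 with he3 | he3
    · -- `e = 2`: T4
      have he2 : e = 2 := by omega
      have hM : M = N'' * q * q := by rw [hN'', he2]; ring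
      haveI : NeZero (N'' * q) := ⟨mul_ne_zero hN''0 hq.ne_zero⟩
      have hnew' : T2fNewAt M (N'' * q) lamg := hnew M g hg (N'' * q) q hM hq O'' ι'
      exact hρ2 q A hA (fun v hv hfix => hN9 q hq hqlam N'' hM hqN'' O'' lamg hnew' A hA v hv hfix)
    · -- `e = k + 2`, `k ≥ 1`: T4E
      obtain ⟨k, hk⟩ : ∃ k, e = k + 2 := ⟨e - 2, by omega⟩
      have hk1 : 1 ≤ k := by omega
      have hM : M = N'' * q ^ k * q * q := by rw [hN'', hk]; ring
      haveI : NeZero (N'' * q ^ k * q) :=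
        ⟨mul_ne_zero (mul_ne_zero hN''0 (pow_ne_zero k hq.ne_zero)) hq.ne_zero⟩
      have hnew' : T2fNewAt M (N'' * q ^ k * q) lamg :=
        hnew M g hg (N'' * q ^ k * q) q hM hq O'' ι'
      exact hρ2 q A hA (fun v hv hfix =>
        hN9e q hq hqlam N'' k hM hqN'' hk1 O'' lamg hnew' A hA v hv hfix)

end

end Fermat.Agent.T4
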